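import Mathlib

/-!
# PROJECT T (S56), block (a5-CHEB), part (5d): the Taylor–Wiles conditions only depend on the
cyclic subgroup generated by the Frobenius element, up to conjugacy

Pure algebra (Mathlib only).

* `eqLocus_cocycle` : two 1-cocycles agree on a subgroup;
* `cocycle_isCoboundaryAt_iff` : for a 1-cocycle `ψ : G → W`, the property
  "`ψ x ∈ (x - 1) W`" (i.e. the restriction of `ψ` to the cyclic group generated by `x` is a
  coboundary) only depends on the conjugacy class of the subgroup `⟨x⟩`;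
* `exists_charpoly_of_zpowers_eq` : for automorphisms `A`, `B` of a plane generating the same
  cyclic group, if `B` has two distinct eigenvalues in `k` then so has `A`.
-/

set_option autoImplicit false

namespace Fermat.Agent.S56.Cheb.DictAlg

section Cocycle

variable {G W : Type*} [Group G] [AddCommGroup W] [DistribMulAction G W]

/-- the 1-cocycle condition -/
def IsCocycle (ψ : G → W) : Prop := ∀ g h : G, ψ (g * h) = ψ g + g • ψ h

theorem IsCocycle.map_one {ψ : G → W} (hψ : IsCocycle ψ) : ψ 1 = 0 := by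
  have h := hψ 1 1
  rw [one_mul, one_smul] at h
  have : ψ 1 + ψ 1 = ψ 1 + 0 := by rw [add_zero]; exact h.symm
  exact add_left_cancel this

theorem IsCocycle.map_inv {ψ : G → W} (hψ : IsCocycle ψ) (g : G) : ψ g⁻¹ = -(g⁻¹ • ψ g) := by
  have h := hψ g⁻¹ g
  rw [inv_mul_cancel, hψ.map_one] at h
  exact eq_neg_of_add_eq_zero_left h.symm

/-- the coboundary of `w` is a cocycle -/
theorem isCocycle_coboundary (w : W) : IsCocycle (fun g : G => g • w - w) := by
  intro g h
  simp only [mul_smul, smul_sub]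
  abel

/-- the subgroup on which two cocycles agree -/
def eqLocus {ψ ψ' : G → W} (hψ : IsCocycle ψ) (hψ' : IsCocycle ψ') : Subgroup G where
  carrier := {g | ψ g = ψ' g}
  one_mem' := by
    show ψ 1 = ψ' 1
    rw [hψ.map_one, hψ'.map_one]
  mul_mem' := by
    intro a b ha hb
    show ψ (a * b) = ψ' (a * b)
    rw [hψ a b, hψ' a b, show ψ a = ψ' a from ha, show ψ b = ψ' b from hb]
  inv_mem' := by
    intro a ha
    show ψ a⁻¹ = ψ' a⁻¹
    rw [hψ.map_inv, hψ'.map_inv, show ψ a = ψ' a from ha]

theorem mem_eqLocus {ψ ψ' : G → W} (hψ : IsCocycle ψ) (hψ' : IsCocycle ψ') (g : G) :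
    g ∈ eqLocus hψ hψ' ↔ ψ g = ψ' g := Iff.rfl

/-- `ψ x ∈ (x - 1) W` -/
def IsCoboundaryAt (ψ : G → W) (x : G) : Prop := ∃ w : W, ψ x = x • w - w

/-- the property only depends on the cyclic subgroup, one direction -/
theorem IsCoboundaryAt.of_mem_zpowers {ψ : G → W} (hψ : IsCocycle ψ) {x y : G}
    (hy : IsCoboundaryAt ψ y) (hx : x ∈ Subgroup.zpowers y) : IsCoboundaryAt ψ x := by
  obtain ⟨w, hw⟩ := hy
  have hle : Subgroup.zpowers y ≤ eqLocus hψ (isCocycle_coboundary w) := by
    rw [Subgroup.zpowers_le]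
    exact hw
  exact ⟨w, hle hx⟩

/-- conjugation invariance, one direction -/
theorem IsCoboundaryAt.conj {ψ : G → W} (hψ : IsCocycle ψ) {y : G} (hy : IsCoboundaryAt ψ y)
    (τ : G) : IsCoboundaryAt ψ (τ * y * τ⁻¹) := by
  obtain ⟨w, hw⟩ := hy
  refine ⟨τ • w - ψ τ, ?_⟩
  rw [hψ (τ * y) τ⁻¹, hψ τ y, hψ.map_inv, hw]
  simp only [mul_smul, smul_sub, smul_neg, inv_smul_smul]
  abel

/-- **the cocycle condition of the Taylor–Wiles primes only depends on the conjugacy class of the
cyclic subgroup** -/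
theorem cocycle_isCoboundaryAt_iff {ψ : G → W} (hψ : IsCocycle ψ) (x y τ : G)
    (h : Subgroup.zpowers x = Subgroup.zpowers (τ * y * τ⁻¹)) :
    IsCoboundaryAt ψ x ↔ IsCoboundaryAt ψ y := by
  constructor
  · intro hx
    have h1 : IsCoboundaryAt ψ (τ * y * τ⁻¹) :=
      hx.of_mem_zpowers hψ (h ▸ Subgroup.mem_zpowers (τ * y * τ⁻¹))
    have h2 := h1.conj hψ τ⁻¹
    have e : τ⁻¹ * (τ * y * τ⁻¹) * τ⁻¹⁻¹ = y := by group
    rwa [e] at h2
  · intro hy
    exact (hy.conj hψ τ).of_mem_zpowers hψ (h ▸ Subgroup.mem_zpowers x)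

end Cocycle

section Eigen

open Polynomial

variable {k V : Type*} [Field k] [AddCommGroup V] [Module k V]

/-- the automorphisms having `v₁` and `v₂` as eigenvectors -/
def diagSubgroup (v₁ v₂ : V) : Subgroup (Module.End k V)ˣ where
  carrier := {U | (∃ a : k, (U : Module.End k V) v₁ = a • v₁) ∧
    ∃ b : k, (U : Module.End k V) v₂ = b • v₂}
  one_mem' := ⟨⟨1, by simp⟩, ⟨1, by simp⟩⟩
  mul_mem' := by
    rintro U U' ⟨⟨a, ha⟩, ⟨b, hb⟩⟩ ⟨⟨a', ha'⟩, ⟨b', hb'⟩⟩
    refine ⟨⟨a' * a, ?_⟩, ⟨b' * b, ?_⟩⟩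
    · rw [Units.val_mul, Module.End.mul_apply, ha', map_smul, ha, smul_smul]
    · rw [Units.val_mul, Module.End.mul_apply, hb', map_smul, hb, smul_smul]
  inv_mem' := by
    rintro U ⟨⟨a, ha⟩, ⟨b, hb⟩⟩
    have key : ∀ (v : V) (c : k), (U : Module.End k V) v = c • v →
        ∃ c' : k, ((U⁻¹ : (Module.End k V)ˣ) : Module.End k V) v = c' • v := by
      intro v c hc
      by_cases hv : v = 0
      · exact ⟨0, by rw [hv, map_zero, smul_zero]⟩
      have hc0 : c ≠ 0 := by
        rintro rfl
        rw [zero_smul] at hc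
        apply hv
        have := congrArg ((U⁻¹ : (Module.End k V)ˣ) : Module.End k V) hc
        rwa [← Module.End.mul_apply, ← Units.val_mul, inv_mul_cancel, Units.val_one,
          Module.End.one_apply, map_zero] at this
      refine ⟨c⁻¹, ?_⟩
      have := congrArg ((U⁻¹ : (Module.End k V)ˣ) : Module.End k V) hc
      rw [← Module.End.mul_apply, ← Units.val_mul, inv_mul_cancel, Units.val_one,
        Module.End.one_apply, map_smul] at this
      exact ((inv_smul_eq_iff₀ hc0).mpr this).symm
    exact ⟨key v₁ a ha, key v₂ b hb⟩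

/-- the scalar automorphisms -/
def scalarSubgroup : Subgroup (Module.End k V)ˣ where
  carrier := {U | ∃ c : k, ∀ v : V, (U : Module.End k V) v = c • v}
  one_mem' := ⟨1, fun v => by simp⟩
  mul_mem' := by
    rintro U U' ⟨c, hc⟩ ⟨c', hc'⟩
    refine ⟨c' * c, fun v => ?_⟩
    rw [Units.val_mul, Module.End.mul_apply, hc', map_smul, hc, smul_smul]
  inv_mem' := by
    rintro U ⟨c, hc⟩
    by_cases hV : ∀ v : V, v = 0
    · exact ⟨0, fun v => by rw [hV v, map_zero, smul_zero]⟩
    push Not at hV
    obtain ⟨v₀, hv₀⟩ := hV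
    have hc0 : c ≠ 0 := by
      rintro rfl
      apply hv₀
      have h1 := hc v₀
      rw [zero_smul] at h1
      have := congrArg ((U⁻¹ : (Module.End k V)ˣ) : Module.End k V) h1
      rwa [← Module.End.mul_apply, ← Units.val_mul, inv_mul_cancel, Units.val_one,
        Module.End.one_apply, map_zero] at this
    refine ⟨c⁻¹, fun v => ?_⟩
    have := congrArg ((U⁻¹ : (Module.End k V)ˣ) : Module.End k V) (hc v)
    rw [← Module.End.mul_apply, ← Units.val_mul, inv_mul_cancel, Units.val_one,
      Module.End.one_apply, map_smul] at this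
    exact ((inv_smul_eq_iff₀ hc0).mpr this).symm

variable [Module.Finite k V]

/-- **distinct eigenvalues only depend on the cyclic subgroup**: if `A` and `B` generate the same
cyclic group of automorphisms of a plane and `B` has two distinct eigenvalues in `k`, so has `A`. -/
theorem exists_charpoly_of_zpowers_eq (hV : Module.finrank k V = 2) (A B : (Module.End k V)ˣ)
    (h : Subgroup.zpowers A = Subgroup.zpowers B) {α β : k} (hαβ : α ≠ β)
    (hB : LinearMap.charpoly (B : Module.End k V) = (X - C α) * (X - C β)) :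
    ∃ α' β' : k, α' ≠ β' ∧
      LinearMap.charpoly (A : Module.End k V) = (X - C α') * (X - C β') := by
  classical
  -- eigenvectors of `B`
  have hα : (B : Module.End k V).HasEigenvalue α := by
    rw [Module.End.hasEigenvalue_iff_isRoot_charpoly, hB]
    simp [Polynomial.IsRoot]
  have hβ : (B : Module.End k V).HasEigenvalue β := by
    rw [Module.End.hasEigenvalue_iff_isRoot_charpoly, hB]
    simp [Polynomial.IsRoot]
  obtain ⟨v₁, hv₁⟩ := hα.exists_hasEigenvector
  obtain ⟨v₂, hv₂⟩ := hβ.exists_hasEigenvector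
  have hli : LinearIndependent k ![v₁, v₂] := by
    refine Module.End.eigenvectors_linearIndependent' (B : Module.End k V) ![α, β] ?_ ![v₁, v₂] ?_
    · intro i j hij
      fin_cases i <;> fin_cases j <;> simp_all
    · intro i
      fin_cases i
      · exact hv₁
      · exact hv₂
  let b : Module.Basis (Fin 2) k V :=
    basisOfLinearIndependentOfCardEqFinrank hli (by rw [Fintype.card_fin, hV])
  have hb0 : b 0 = v₁ := by simp [b]
  have hb1 : b 1 = v₂ := by simp [b]
  -- `B` is diagonal, hence so is `A`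
  have hBD : B ∈ diagSubgroup (k := k) v₁ v₂ :=
    ⟨⟨α, hv₁.apply_eq_smul⟩, ⟨β, hv₂.apply_eq_smul⟩⟩
  have hAD : A ∈ diagSubgroup (k := k) v₁ v₂ := by
    have hle : Subgroup.zpowers B ≤ diagSubgroup (k := k) v₁ v₂ := by
      rw [Subgroup.zpowers_le]
      exact hBD
    exact hle (h ▸ Subgroup.mem_zpowers A)
  obtain ⟨⟨a, ha⟩, ⟨c, hc⟩⟩ := hAD
  refine ⟨a, c, ?_, ?_⟩
  · -- `a ≠ c`: otherwise `A`, hence `B`, is scalar
    intro hac
    have hAs : A ∈ scalarSubgroup (k := k) (V := V) := by
      refine ⟨a, fun v => ?_⟩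
      have hv := b.sum_repr v
      rw [Fin.sum_univ_two, hb0, hb1] at hv
      rw [← hv, map_add, map_smul, map_smul, ha, hc, ← hac, smul_add, smul_comm a, smul_comm a]
    have hBs : B ∈ scalarSubgroup (k := k) (V := V) := by
      have hle : Subgroup.zpowers A ≤ scalarSubgroup (k := k) (V := V) := by
        rw [Subgroup.zpowers_le]
        exact hAs
      exact hle (h.symm ▸ Subgroup.mem_zpowers B)
    obtain ⟨s, hs⟩ := hBs
    have h1 : α • v₁ = s • v₁ := by rw [← hv₁.apply_eq_smul, hs]
    have h2 : β • v₂ = s • v₂ := by rw [← hv₂.apply_eq_smul, hs]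
    have e1 : α = s := smul_left_injective k hv₁.2 h1
    have e2 : β = s := smul_left_injective k hv₂.2 h2
    exact hαβ (e1.trans e2.symm)
  · -- the matrix of `A` in the basis `b` is diagonal
    rw [← hb0] at ha
    rw [← hb1] at hc
    have hM : LinearMap.toMatrix b b (A : Module.End k V) = Matrix.diagonal ![a, c] := by
      ext i j
      rw [LinearMap.toMatrix_apply]
      fin_cases i <;> fin_cases j <;>
        simp [ha, hc, Matrix.diagonal, Module.Basis.repr_self]
    rw [← LinearMap.charpoly_toMatrix (A : Module.End k V) b, hM, Matrix.charpoly_diagonal,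
      Fin.prod_univ_two]
    simp

end Eigen

end Fermat.Agent.S56.Cheb.DictAlg
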