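import Mathlib
import Fermat.Agent.S30.Density.Bridge
import Fermat.Agent.CFT.LocalBridge.Conjugacy
import Fermat.Agent.S56.Cheb.DictAlg

/-!
# PROJECT T (S56), block (a5-CHEB), part (5): the dictionary

The Frobenius density theorem of PROJECT K (`Fermat.Agent.S30.Density.Bridge.f1`) in the form
consumed by the selection of Taylor–Wiles primes: **for every place over `l` and every Frobenius
element at that place**.

* `isFrobeniusAt_iff`, `isFrobeniusAt_smul_iff` : the Prelude's `IsFrobeniusAt` in elementary terms,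
  and its transport to a conjugate place;
* `exists_prime_forall_frobenius` : (5c) for a finite `L ⊆ ℚ̄`, `σ ∈ G_ℚ` and a finite set `S`
  there is a prime `l ∉ S` such that for EVERY valuation subring `P` of `ℚ̄` over `l`:
  the inertia group at `P` fixes `L`, and EVERY Frobenius element `φ` at `P` generates on `L` the
  same cyclic group as a conjugate of `σ`.
-/

set_option autoImplicit false
set_option linter.unusedSectionVars false
set_option linter.style.haveILetI false

noncomputable section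

namespace Fermat.Agent.S56.Cheb.Dict

open NumberField Fermat.Agent.Lib.FrobeniusExists Fermat.Agent.S30.Density.Bridge
open Fermat.Agent.CFT.LocalBridge
open scoped Pointwise

/-! ### `IsFrobeniusAt` in elementary terms -/

section Elementary

variable {K L : Type*} [Field K] [Field L] [Algebra K L]

/-- The Prelude's `IsFrobeniusAt`, in elementary terms. -/
theorem isFrobeniusAt_iff (A : ValuationSubring L) (σ : L ≃ₐ[K] L) (q : ℕ) :
    A.IsFrobeniusAt σ q ↔ σ • A = A ∧ ∀ x ∈ A, σ x - x ^ q ∈ A.nonunits := by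
  constructor
  · intro h
    exact ⟨h.mem_decompositionSubgroup, fun x hx => IsFrobeniusAt.sub_pow_mem_nonunits h hx⟩
  · rintro ⟨hσ, h⟩
    have hσ' : σ ∈ A.decompositionSubgroup K := hσ
    refine ⟨hσ', fun r => ?_⟩
    obtain ⟨a, rfl⟩ := IsLocalRing.residue_surjective r
    rw [← IsLocalRing.ResidueField.residue_smul, ← map_pow, ← sub_eq_zero, ← map_sub,
      IsLocalRing.residue_eq_zero_iff, ← ValuationSubring.coe_mem_nonunits_iff]
    exact h a a.2

/-- The Frobenius elements at a conjugate place are the conjugates of the Frobenius elements. -/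
theorem isFrobeniusAt_smul_iff (A : ValuationSubring L) (τ φ : L ≃ₐ[K] L) (q : ℕ) :
    (τ • A).IsFrobeniusAt φ q ↔ A.IsFrobeniusAt (τ⁻¹ * φ * τ) q := by
  rw [isFrobeniusAt_iff, isFrobeniusAt_iff]
  refine and_congr ?_ ?_
  · rw [mul_smul, mul_smul, inv_smul_eq_iff]
  · constructor
    · intro h x hx
      have h1 := h (τ x) (ValuationSubring.smul_mem_pointwise_smul τ x A hx)
      rw [smul_nonunits_iff] at h1
      simpa [AlgEquiv.mul_apply] using h1
    · intro h x hx
      rw [ValuationSubring.mem_pointwise_smul_iff_inv_smul_mem, AlgEquiv.smul_def] at hx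
      have h1 := h _ hx
      rw [smul_nonunits_iff]
      simpa [AlgEquiv.mul_apply] using h1

end Elementary

/-! ### The number-field statement at a place of `ℚ̄` -/

section Core

local notation "Qb" => AlgebraicClosure ℚ

variable (L' : IntermediateField ℚ Qb) [FiniteDimensional ℚ L'] [IsGalois ℚ L']

/-- Restriction `G_ℚ → Gal(L'/ℚ)`. -/
def res : (Qb ≃ₐ[ℚ] Qb) →* (L' ≃ₐ[ℚ] L') := AlgEquiv.restrictNormalHom L'

theorem res_apply (g : Qb ≃ₐ[ℚ] Qb) (x : L') : ((res L' g x : L') : Qb) = g (x : Qb) :=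
  AlgEquiv.restrictNormal_commutes g L' x

theorem res_eq_iff (g h : Qb ≃ₐ[ℚ] Qb) : res L' g = res L' h ↔ ∀ x ∈ L', g x = h x := by
  constructor
  · intro e x hx
    have h1 := res_apply L' g ⟨x, hx⟩
    rw [e, res_apply] at h1
    exact h1.symm
  · intro e
    ext x
    rw [res_apply, res_apply]
    exact e _ x.2

variable {L'} {Q : Ideal (𝓞 L')} {A : ValuationSubring Qb}

/-- Inertia at a place centred at `Q` restricts into the inertia group of `Q`, which is trivial. -/
theorem res_eq_one_of_mem_inertia (hQ : Q.IsMaximal) (hA : ∀ y ∈ Q, incl L' y ∈ A.nonunits)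
    (hinert : ∀ ρ : L' ≃ₐ[ℚ] L',
      (∀ x : 𝓞 L', ∃ y ∈ Q, ρ (x : L') - (x : L') = (y : L')) → ρ = 1)
    {g : Qb ≃ₐ[ℚ] Qb} (hg : g ∈ A.inertiaSubgroupIn ℚ) : res L' g = 1 := by
  have hcentre : centre L' A = Q := centre_eq L' A hQ hA
  obtain ⟨-, hg2⟩ := (mem_inertiaSubgroupIn_iff A g).mp hg
  apply hinert
  intro x
  refine ⟨oi (res L' g) x - x, ?_, rfl⟩
  have hxA : ((x : L') : Qb) ∈ A := integral_mem A _ (isIntegral_incl L' x)
  have h0 : ((oi (res L' g) x - x : 𝓞 L') : L') = res L' g (x : L') - (x : L') := rfl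
  have h00 : ((res L' g (x : L') - (x : L') : L') : Qb) =
      ((res L' g (x : L') : L') : Qb) - ((x : L') : Qb) := rfl
  rw [← hcentre, mem_centre_iff, incl_apply, h0, h00, res_apply]
  exact hg2 _ hxA

/-- A Frobenius element at a place centred at `Q` restricts to the Frobenius element of `Q`. -/
theorem res_eq_of_isFrobeniusAt (hQ : Q.IsMaximal) (hA : ∀ y ∈ Q, incl L' y ∈ A.nonunits)
    (hinert : ∀ ρ : L' ≃ₐ[ℚ] L',
      (∀ x : 𝓞 L', ∃ y ∈ Q, ρ (x : L') - (x : L') = (y : L')) → ρ = 1)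
    {l : ℕ} (hl : l.Prime) {ψ : L' ≃ₐ[ℚ] L'}
    (hfrob : ∀ x : 𝓞 L', ∃ y ∈ Q, ψ (x : L') - (x : L') ^ l = (y : L'))
    {τ : Qb ≃ₐ[ℚ] Qb} (hτ : A.IsFrobeniusAt τ l) : res L' τ = ψ := by
  have hcentre : centre L' A = Q := centre_eq L' A hQ hA
  have hψQ : ∀ x ∈ Q, oi ψ x ∈ Q := by
    intro x hx
    obtain ⟨y, hy, hxy⟩ := hfrob x
    have h1 : oi ψ x = y + x ^ l := by
      apply RingOfIntegers.ext
      have h0 : ((y + x ^ l : 𝓞 L') : L') = (y : L') + (x : L') ^ l := rfl
      rw [coe_oi, h0, ← hxy]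
      ring
    rw [h1]
    exact Q.add_mem hy (Q.pow_mem_of_mem hx l hl.pos)
  have hψinvQ : ∀ x ∈ Q, oi ψ⁻¹ x ∈ Q := oi_inv_mem ψ Q hψQ
  have hρ1 : ψ⁻¹ * res L' τ = 1 := by
    apply hinert
    intro x
    have hz : oi (res L' τ) x - oi ψ x ∈ Q := by
      have h0 : ((oi (res L' τ) x - oi ψ x : 𝓞 L') : L') = res L' τ (x : L') - ψ (x : L') := rfl
      have h00 : ((res L' τ (x : L') - ψ (x : L') : L') : Qb) =
          ((res L' τ (x : L') : L') : Qb) - ((ψ (x : L') : L') : Qb) := rfl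
      rw [← hcentre, mem_centre_iff, incl_apply, h0, h00, res_apply]
      obtain ⟨y, hy, hxy⟩ := hfrob x
      have hxA : ((x : L') : Qb) ∈ A := integral_mem A _ (isIntegral_incl L' x)
      have h1 := IsFrobeniusAt.sub_pow_mem_nonunits hτ hxA
      have h2 : (((ψ (x : L') : L') : Qb)) - ((x : L') : Qb) ^ l ∈ A.nonunits := by
        have := hA y hy
        rw [incl_apply, ← hxy] at this
        simpa using this
      have h3 : τ ((x : L') : Qb) - ((ψ (x : L') : L') : Qb) =
          (τ ((x : L') : Qb) - ((x : L') : Qb) ^ l) -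
            ((((ψ (x : L') : L') : Qb)) - ((x : L') : Qb) ^ l) := by ring
      rw [h3]
      exact A.nonunits.sub_mem h1 h2
    refine ⟨_, hψinvQ _ hz, ?_⟩
    have h0 : ((oi (res L' τ) x - oi ψ x : 𝓞 L') : L') = res L' τ (x : L') - ψ (x : L') := rfl
    rw [coe_oi, h0, map_sub, AlgEquiv.mul_apply]
    have : ψ⁻¹ (ψ (x : L')) = (x : L') := by
      rw [← AlgEquiv.mul_apply, inv_mul_cancel, AlgEquiv.one_apply]
    rw [this]
  have := congrArg (fun g => ψ * g) hρ1
  simpa using this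

end Core

/-! ### (5c) The density theorem for all places and all Frobenius elements -/

section Main

local notation "Qb" => AlgebraicClosure ℚ

/-- **(5c)** For a finite `L ⊆ ℚ̄`, `σ ∈ G_ℚ` and a finite set `S` there is a prime `l ∉ S` such that
for EVERY valuation subring `P` of `ℚ̄` over `l`, the inertia group at `P` fixes `L` and EVERY
Frobenius element `φ` at `P` generates on `L` the same cyclic group as a conjugate of `σ`:
`φ = (τ σ τ⁻¹) ^ k` and `φ ^ j = τ σ τ⁻¹` on `L`. -/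
theorem exists_prime_forall_frobenius (L : IntermediateField ℚ Qb) [FiniteDimensional ℚ L]
    (σ : Qb ≃ₐ[ℚ] Qb) (S : Finset ℕ) :
    ∃ l : ℕ, l.Prime ∧ l ∉ S ∧ ∀ P : ValuationSubring Qb, P.LiesOverPrime l →
      (∀ g ∈ P.inertiaSubgroupIn ℚ, ∀ x ∈ L, g x = x) ∧
      ∀ φ : Qb ≃ₐ[ℚ] Qb, P.IsFrobeniusAt φ l → ∃ (τ : Qb ≃ₐ[ℚ] Qb) (k j : ℕ),
        (∀ x ∈ L, φ x = ((τ * σ * τ⁻¹) ^ k) x) ∧ (∀ x ∈ L, (φ ^ j) x = (τ * σ * τ⁻¹) x) := by
  classical
  -- the normal closure
  set L' : IntermediateField ℚ Qb := IntermediateField.normalClosure ℚ L Qb with hL'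
  haveI : Normal ℚ Qb := IsAlgClosure.normal ℚ Qb
  haveI : Normal ℚ L' := normalClosure.normal ℚ L Qb
  haveI : FiniteDimensional ℚ L' := normalClosure.is_finiteDimensional ℚ L Qb
  haveI : IsGalois ℚ L' := ⟨⟩
  have hLL' : L ≤ L' := IntermediateField.le_normalClosure L
  obtain ⟨l, k, Q, hl, hlS, hk, hQ, hlQ, hfrob, hinert⟩ := f1 L' (res L' σ) S
  obtain ⟨A, hA⟩ := exists_valuationSubring_of_ideal L' Q hQ.ne_top
  have hAl : A.LiesOverPrime l := by
    have := hA _ hlQ
    rw [incl_apply] at this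
    show (l : Qb) ∈ A.nonunits
    simpa using this
  obtain ⟨j, hj⟩ : ∃ j : ℕ, (res L' σ ^ k) ^ j = res L' σ := exists_pow_eq_self_of_coprime hk
  refine ⟨l, hl, hlS, fun P hP => ?_⟩
  obtain ⟨τ, rfl⟩ := exists_smul_eq_of_liesOverPrime hl hAl hP
  refine ⟨fun g hg x hx => ?_, fun φ hφ => ⟨τ, k, j, ?_, ?_⟩⟩
  · -- inertia
    rw [mem_inertiaSubgroupIn_smul_iff] at hg
    have h1 : res L' (τ⁻¹ * g * τ) = 1 := res_eq_one_of_mem_inertia hQ hA hinert hg
    have h2 : res L' g = res L' 1 := by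
      rw [map_mul, map_mul, map_inv] at h1
      rw [map_one]
      have := congrArg (fun u => res L' τ * u * (res L' τ)⁻¹) h1
      simpa [mul_assoc] using this
    have := (res_eq_iff L' g 1).mp h2 x (hLL' hx)
    simpa using this
  · -- `φ = (τ σ τ⁻¹) ^ k`
    rw [isFrobeniusAt_smul_iff] at hφ
    have h1 : res L' (τ⁻¹ * φ * τ) = res L' σ ^ k :=
      res_eq_of_isFrobeniusAt hQ hA hinert hl hfrob hφ
    have h2 : res L' φ = res L' ((τ * σ * τ⁻¹) ^ k) := by
      rw [map_mul, map_mul, map_inv] at h1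
      rw [map_pow, map_mul, map_mul, map_inv, conj_pow, ← h1]
      group
    exact fun x hx => (res_eq_iff L' _ _).mp h2 x (hLL' hx)
  · -- `φ ^ j = τ σ τ⁻¹`
    rw [isFrobeniusAt_smul_iff] at hφ
    have h1 : res L' (τ⁻¹ * φ * τ) = res L' σ ^ k :=
      res_eq_of_isFrobeniusAt hQ hA hinert hl hfrob hφ
    have h2 : res L' (φ ^ j) = res L' (τ * σ * τ⁻¹) := by
      rw [map_mul, map_mul, map_inv] at h1
      rw [map_pow, map_mul, map_mul, map_inv]
      have h3 : res L' φ = res L' τ * (res L' σ ^ k) * (res L' τ)⁻¹ := by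
        rw [← h1]
        group
      rw [h3, conj_pow, hj]
    exact fun x hx => (res_eq_iff L' _ _).mp h2 x (hLL' hx)

end Main

end Fermat.Agent.S56.Cheb.Dict
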