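import Mathlib
import Fermat.Prelude.Def_GaloisRep_Residual
import Fermat.Agent.S30.Algebra.Cyclotomic
import Fermat.Agent.S56.Cheb.Dict

/-!
# PROJECT T (S56), block (a5-CHEB), part (5d): the Taylor–Wiles conditions at a Chebotarev prime

The output of `Dict.exists_prime_forall_frobenius` is: every Frobenius element `φ` at every place
over `l` satisfies `φ = (τ σ τ⁻¹) ^ k` and `φ ^ j = τ σ τ⁻¹` on `L`. This file turns that into the
three literal clauses used by the selection of Taylor–Wiles primes: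

* `pow_dvd_sub_one` : (i') if `L ⊇ μ_{p^n}` and `σ` fixes `μ_{p^n}` then `p ^ n ∣ l - 1`;
* `exists_charpoly_frobenius` : (ii') if `ρbar` factors through `L` and `ρbar σ` has two distinct
  eigenvalues in `k`, so has `ρbar φ`;
* `isCoboundaryAt_frobenius_iff` : (iii') for a cocycle `ψ` of level `L`, `ψ φ ∈ (φ - 1) W` iff
  `ψ σ ∈ (σ - 1) W`.
-/

set_option autoImplicit false
set_option linter.unusedSectionVars false
set_option linter.style.haveILetI false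

noncomputable section

namespace Fermat.Agent.S56.Cheb.TW

open Polynomial Fermat.Agent.S56.Cheb.DictAlg Fermat.Agent.S30.Algebra.Cyclotomic

local notation "Qb" => AlgebraicClosure ℚ

/-! ### Cocycles modulo a subgroup acting trivially -/

section CocycleMod

variable {G W : Type*} [Group G] [AddCommGroup W] [DistribMulAction G W]

/-- multiplying on the right by an element `n` acting trivially with `ψ (x n) = ψ x` -/
theorem isCoboundaryAt_mul_right_iff {ψ : G → W} {x n : G} (hn : ψ (x * n) = ψ x)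
    (hnW : ∀ w : W, n • w = w) : IsCoboundaryAt ψ (x * n) ↔ IsCoboundaryAt ψ x := by
  unfold IsCoboundaryAt
  simp only [hn, mul_smul, hnW]

/-- **(iii'), abstract form**: let `N` be a subgroup acting trivially on `W` and `ψ` a cocycle
constant on the cosets `g N`. If `x ≡ (τ y τ⁻¹) ^ k` and `x ^ j ≡ τ y τ⁻¹` modulo `N`, then
`ψ x ∈ (x - 1) W ↔ ψ y ∈ (y - 1) W`. -/
theorem isCoboundaryAt_iff_of_mod {ψ : G → W} (hψ : IsCocycle ψ) (N : Subgroup G)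
    (hN : ∀ g : G, ∀ n ∈ N, ψ (g * n) = ψ g) (hNW : ∀ n ∈ N, ∀ w : W, n • w = w)
    {x y τ : G} {k j : ℕ} (h1 : ((τ * y * τ⁻¹) ^ k)⁻¹ * x ∈ N)
    (h2 : (τ * y * τ⁻¹)⁻¹ * x ^ j ∈ N) : IsCoboundaryAt ψ x ↔ IsCoboundaryAt ψ y := by
  have e1 : x = (τ * y * τ⁻¹) ^ k * (((τ * y * τ⁻¹) ^ k)⁻¹ * x) := by group
  have e2 : x ^ j = (τ * y * τ⁻¹) * ((τ * y * τ⁻¹)⁻¹ * x ^ j) := by group
  constructor
  · intro hx
    have hxj : IsCoboundaryAt ψ (x ^ j) :=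
      hx.of_mem_zpowers hψ (Subgroup.npow_mem_zpowers x j)
    rw [e2, isCoboundaryAt_mul_right_iff (hN _ _ h2) (hNW _ h2)] at hxj
    have h3 := hxj.conj hψ τ⁻¹
    have e : τ⁻¹ * (τ * y * τ⁻¹) * τ⁻¹⁻¹ = y := by group
    rwa [e] at h3
  · intro hy
    have h3 : IsCoboundaryAt ψ ((τ * y * τ⁻¹) ^ k) :=
      (hy.conj hψ τ).of_mem_zpowers hψ (Subgroup.npow_mem_zpowers _ k)
    rw [e1, isCoboundaryAt_mul_right_iff (hN _ _ h1) (hNW _ h1)]
    exact h3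

end CocycleMod

/-! ### Galois-theoretic forms -/

section Galois

/-- agreement on `L` in terms of the fixing subgroup -/
theorem inv_mul_mem_fixingSubgroup (L : IntermediateField ℚ Qb) {a b : Qb ≃ₐ[ℚ] Qb}
    (h : ∀ x ∈ L, a x = b x) : b⁻¹ * a ∈ L.fixingSubgroup := by
  rw [IntermediateField.mem_fixingSubgroup_iff]
  intro x hx
  rw [AlgEquiv.mul_apply, h x hx]
  show b⁻¹ (b x) = x
  rw [← AlgEquiv.mul_apply, inv_mul_cancel, AlgEquiv.one_apply]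

/-- a conjugate of an element fixing the `N`-th roots of unity fixes them -/
theorem conj_pow_fixes {N : ℕ} {σ : Qb ≃ₐ[ℚ] Qb} (hσ : ∀ t : Qb, t ^ N = 1 → σ t = t)
    (τ : Qb ≃ₐ[ℚ] Qb) (k : ℕ) : ∀ t : Qb, t ^ N = 1 → ((τ * σ * τ⁻¹) ^ k) t = t := by
  have h1 : ∀ t : Qb, t ^ N = 1 → (τ * σ * τ⁻¹) t = t := by
    intro t ht
    have ht' : (τ⁻¹ t) ^ N = 1 := by rw [← map_pow, ht, map_one]
    rw [AlgEquiv.mul_apply, AlgEquiv.mul_apply, hσ _ ht']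
    show τ (τ⁻¹ t) = t
    rw [← AlgEquiv.mul_apply, mul_inv_cancel, AlgEquiv.one_apply]
  intro t ht
  induction k with
  | zero => rw [pow_zero, AlgEquiv.one_apply]
  | succ k ih => rw [pow_succ, AlgEquiv.mul_apply, h1 t ht, ih]

/-- **(i')** a Frobenius element at `l ≠ p` fixing `μ_{p^n}` forces `p ^ n ∣ l - 1`. -/
theorem pow_dvd_sub_one_of_fixes (p : ℕ) [Fact p.Prime] {l : ℕ} (hl : l.Prime) (hlp : l ≠ p)
    (n : ℕ) {P : ValuationSubring Qb} (hP : P.LiesOverPrime l) {φ : Qb ≃ₐ[ℚ] Qb}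
    (hφ : P.IsFrobeniusAt φ l) (hfix : ∀ t : Qb, t ^ p ^ n = 1 → φ t = t) : p ^ n ∣ l - 1 := by
  have h1 := cyc_sub_one_mem p φ n hfix
  rw [cyc_isFrobeniusAt p hl hlp P hP φ hφ, Ideal.mem_span_singleton] at h1
  have h2 : ((l : ℤ_[p]) - 1) = (((l : ℤ) - 1 : ℤ) : ℤ_[p]) := by push_cast; ring
  rw [h2, PadicInt.pow_p_dvd_int_iff] at h1
  have h3 : ((p ^ n : ℕ) : ℤ) ∣ ((l - 1 : ℕ) : ℤ) := by
    rw [Nat.cast_pred hl.pos]
    exact_mod_cast h1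
  exact Int.natCast_dvd_natCast.mp h3

/-- **(i')** in the shape of the output of `Dict.exists_prime_forall_frobenius`. -/
theorem pow_dvd_sub_one (p : ℕ) [Fact p.Prime] {l : ℕ} (hl : l.Prime) (hlp : l ≠ p) (n : ℕ)
    (L : IntermediateField ℚ Qb) (hL : ∀ t : Qb, t ^ p ^ n = 1 → t ∈ L)
    {σ : Qb ≃ₐ[ℚ] Qb} (hσ : ∀ t : Qb, t ^ p ^ n = 1 → σ t = t)
    {P : ValuationSubring Qb} (hP : P.LiesOverPrime l) {φ τ : Qb ≃ₐ[ℚ] Qb} {k : ℕ}
    (hφ : P.IsFrobeniusAt φ l) (h1 : ∀ x ∈ L, φ x = ((τ * σ * τ⁻¹) ^ k) x) : p ^ n ∣ l - 1 :=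
  pow_dvd_sub_one_of_fixes p hl hlp n hP hφ fun t ht => by
    rw [h1 t (hL t ht), conj_pow_fixes hσ τ k t ht]

variable {k : Type} [Field k]

/-- a representation factoring through `L` takes the same value on elements agreeing on `L` -/
theorem rho_eq_of_eqOn {M : Type*} [Monoid M] (ρ : (Qb ≃ₐ[ℚ] Qb) →* M)
    (L : IntermediateField ℚ Qb)
    (hL : ∀ g : Qb ≃ₐ[ℚ] Qb, (∀ x ∈ L, g x = x) → ρ g = 1) {a b : Qb ≃ₐ[ℚ] Qb}
    (h : ∀ x ∈ L, a x = b x) : ρ a = ρ b := by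
  have h1 : ρ (b⁻¹ * a) = 1 := by
    apply hL
    intro x hx
    rw [AlgEquiv.mul_apply, h x hx]
    show b⁻¹ (b x) = x
    rw [← AlgEquiv.mul_apply, inv_mul_cancel, AlgEquiv.one_apply]
  have h2 : a = b * (b⁻¹ * a) := by group
  rw [h2, map_mul, h1, mul_one]

/-- **(ii')** if `ρbar` factors through `L`, `ρbar σ` has two distinct eigenvalues in `k` and
`φ` generates on `L` the same cyclic group as a conjugate of `σ`, then `ρbar φ` has two distinct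
eigenvalues in `k`. -/
theorem exists_charpoly_frobenius (ρbar : ResidualGaloisRep k) (L : IntermediateField ℚ Qb)
    (hL : ∀ g : Qb ≃ₐ[ℚ] Qb, (∀ x ∈ L, g x = x) → ρbar.ρ g = 1)
    {σ τ φ : Qb ≃ₐ[ℚ] Qb} {m j : ℕ} (h1 : ∀ x ∈ L, φ x = ((τ * σ * τ⁻¹) ^ m) x)
    (h2 : ∀ x ∈ L, (φ ^ j) x = (τ * σ * τ⁻¹) x) {α β : k} (hαβ : α ≠ β)
    (hσ : LinearMap.charpoly (ρbar.ρ σ) = (X - C α) * (X - C β)) :
    ∃ α' β' : k, α' ≠ β' ∧ LinearMap.charpoly (ρbar.ρ φ) = (X - C α') * (X - C β') := by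
  set ρu : (Qb ≃ₐ[ℚ] Qb) →* (Module.End k ρbar.V)ˣ := ρbar.ρ.toHomUnits with hρu
  have hLu : ∀ g : Qb ≃ₐ[ℚ] Qb, (∀ x ∈ L, g x = x) → ρu g = 1 := fun g hg =>
    Units.ext (by rw [hρu, MonoidHom.coe_toHomUnits, hL g hg, Units.val_one])
  have e1 : ρu φ = ρu (τ * σ * τ⁻¹) ^ m := by
    rw [← map_pow]
    exact rho_eq_of_eqOn ρu L hLu h1
  have e2 : ρu φ ^ j = ρu (τ * σ * τ⁻¹) := by
    rw [← map_pow]
    exact rho_eq_of_eqOn ρu L hLu h2
  have hz : Subgroup.zpowers (ρu φ) = Subgroup.zpowers (ρu (τ * σ * τ⁻¹)) := by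
    apply le_antisymm
    · rw [Subgroup.zpowers_le, e1]
      exact Subgroup.npow_mem_zpowers _ m
    · rw [Subgroup.zpowers_le, ← e2]
      exact Subgroup.npow_mem_zpowers _ j
  -- the characteristic polynomial is invariant under conjugation
  have hconj : LinearMap.charpoly ((ρu (τ * σ * τ⁻¹) : (Module.End k ρbar.V)ˣ) :
      Module.End k ρbar.V) = (X - C α) * (X - C β) := by
    rw [← hσ]
    have e : ((ρu (τ * σ * τ⁻¹) : (Module.End k ρbar.V)ˣ) : Module.End k ρbar.V) =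
        (LinearMap.GeneralLinearGroup.toLinearEquiv (ρu τ)).conj (ρbar.ρ σ) := by
      rw [map_mul, map_mul, map_inv]
      ext v
      rfl
    rw [e, LinearEquiv.charpoly_conj]
  have := exists_charpoly_of_zpowers_eq ρbar.finrank_eq (ρu φ) (ρu (τ * σ * τ⁻¹)) hz hαβ hconj
  simpa [hρu, MonoidHom.coe_toHomUnits] using this

/-- **(iii')** for a cocycle `ψ : G_ℚ → W` of level `L` (constant on the cosets of the fixing
subgroup of `L`, which acts trivially on `W`): if `φ` generates on `L` the same cyclic group as a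
conjugate of `σ`, then `ψ φ ∈ (φ - 1) W ↔ ψ σ ∈ (σ - 1) W`. -/
theorem isCoboundaryAt_frobenius_iff {W : Type*} [AddCommGroup W]
    [DistribMulAction (Qb ≃ₐ[ℚ] Qb) W] {ψ : (Qb ≃ₐ[ℚ] Qb) → W} (hψ : IsCocycle ψ)
    (L : IntermediateField ℚ Qb)
    (hψL : ∀ g n : Qb ≃ₐ[ℚ] Qb, (∀ x ∈ L, n x = x) → ψ (g * n) = ψ g)
    (hWL : ∀ n : Qb ≃ₐ[ℚ] Qb, (∀ x ∈ L, n x = x) → ∀ w : W, n • w = w)
    {σ τ φ : Qb ≃ₐ[ℚ] Qb} {m j : ℕ} (h1 : ∀ x ∈ L, φ x = ((τ * σ * τ⁻¹) ^ m) x)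
    (h2 : ∀ x ∈ L, (φ ^ j) x = (τ * σ * τ⁻¹) x) :
    IsCoboundaryAt ψ φ ↔ IsCoboundaryAt ψ σ := by
  refine isCoboundaryAt_iff_of_mod hψ L.fixingSubgroup ?_ ?_ (k := m) (j := j) (τ := τ)
    (inv_mul_mem_fixingSubgroup L h1) (inv_mul_mem_fixingSubgroup L h2)
  · intro g n hn
    exact hψL g n ((IntermediateField.mem_fixingSubgroup_iff _ _).mp hn)
  · intro n hn
    exact hWL n ((IntermediateField.mem_fixingSubgroup_iff _ _).mp hn)

/-- **(iii')** for a cocycle with values in a representation `ρW : G_ℚ →* End_R W`. -/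
theorem rep_isCoboundaryAt_frobenius_iff {R W : Type*} [CommRing R] [AddCommGroup W] [Module R W]
    (ρW : (Qb ≃ₐ[ℚ] Qb) →* Module.End R W) {ψ : (Qb ≃ₐ[ℚ] Qb) → W}
    (hψ : ∀ g h : Qb ≃ₐ[ℚ] Qb, ψ (g * h) = ψ g + ρW g (ψ h))
    (L : IntermediateField ℚ Qb)
    (hψL : ∀ g n : Qb ≃ₐ[ℚ] Qb, (∀ x ∈ L, n x = x) → ψ (g * n) = ψ g)
    (hWL : ∀ n : Qb ≃ₐ[ℚ] Qb, (∀ x ∈ L, n x = x) → ρW n = 1)
    {σ τ φ : Qb ≃ₐ[ℚ] Qb} {m j : ℕ} (h1 : ∀ x ∈ L, φ x = ((τ * σ * τ⁻¹) ^ m) x)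
    (h2 : ∀ x ∈ L, (φ ^ j) x = (τ * σ * τ⁻¹) x) :
    (∃ w : W, ψ φ = ρW φ w - w) ↔ ∃ w : W, ψ σ = ρW σ w - w := by
  letI : DistribMulAction (Qb ≃ₐ[ℚ] Qb) W := DistribMulAction.compHom W ρW
  have hsmul : ∀ (g : Qb ≃ₐ[ℚ] Qb) (w : W), g • w = ρW g w := fun _ _ => rfl
  have hψ' : IsCocycle ψ := fun g h => by rw [hψ g h, hsmul]
  have key := isCoboundaryAt_frobenius_iff hψ' L hψL
    (fun n hn w => by rw [hsmul, hWL n hn, Module.End.one_apply]) h1 h2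
  unfold IsCoboundaryAt at key
  simpa only [hsmul] using key

/-! ### The bundle: a Chebotarev prime with the Taylor–Wiles properties -/

/-- **(5) the bundle consumed by the selection of Taylor–Wiles primes.** Let `L ⊆ ℚ̄` be finite over
`ℚ`, containing `μ_{p^n}`, with `ρbar` factoring through `L`. Let `σ ∈ G_ℚ` fix `μ_{p^n}` with
`ρbar σ` having two distinct eigenvalues in `k`. For every finite set `S` there is a prime `l ∉ S`,
`l ≠ p`, `p ^ n ∣ l - 1`, such that for EVERY place `P` over `l`: inertia at `P` fixes `L` (so `ρbar`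
is unramified at `l`), and for EVERY Frobenius element `φ` at `P`: `ρbar φ` has two distinct
eigenvalues in `k` [the literal clause of S56], and `φ` generates on `L` the same cyclic group as a
conjugate of `σ` [the input of `isCoboundaryAt_frobenius_iff`]. -/
theorem exists_tw_prime (p : ℕ) [Fact p.Prime] (n : ℕ) (ρbar : ResidualGaloisRep k)
    (L : IntermediateField ℚ Qb) [FiniteDimensional ℚ L]
    (hLμ : ∀ t : Qb, t ^ p ^ n = 1 → t ∈ L)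
    (hLρ : ∀ g : Qb ≃ₐ[ℚ] Qb, (∀ x ∈ L, g x = x) → ρbar.ρ g = 1)
    (σ : Qb ≃ₐ[ℚ] Qb) (hσμ : ∀ t : Qb, t ^ p ^ n = 1 → σ t = t) {α β : k} (hαβ : α ≠ β)
    (hσρ : LinearMap.charpoly (ρbar.ρ σ) = (X - C α) * (X - C β)) (S : Finset ℕ) :
    ∃ l : ℕ, l.Prime ∧ l ∉ S ∧ l ≠ p ∧ p ^ n ∣ l - 1 ∧
      ∀ P : ValuationSubring Qb, P.LiesOverPrime l →
        (∀ g ∈ P.inertiaSubgroupIn ℚ, ∀ x ∈ L, g x = x) ∧
        ∀ φ : Qb ≃ₐ[ℚ] Qb, P.IsFrobeniusAt φ l →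
          (∃ α' β' : k, α' ≠ β' ∧
            LinearMap.charpoly (ρbar.ρ φ) = (X - C α') * (X - C β')) ∧
          ∃ (τ : Qb ≃ₐ[ℚ] Qb) (m j : ℕ), (∀ x ∈ L, φ x = ((τ * σ * τ⁻¹) ^ m) x) ∧
            (∀ x ∈ L, (φ ^ j) x = (τ * σ * τ⁻¹) x) := by
  classical
  obtain ⟨l, hl, hlS, h⟩ := Dict.exists_prime_forall_frobenius L σ (insert p S)
  have hlp : l ≠ p := fun e => hlS (e ▸ Finset.mem_insert_self _ _)
  have hlS' : l ∉ S := fun e => hlS (Finset.mem_insert_of_mem e)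
  refine ⟨l, hl, hlS', hlp, ?_, fun P hP => ⟨(h P hP).1, fun φ hφ => ?_⟩⟩
  · obtain ⟨P, φ, hP, hφ⟩ :=
      Fermat.Agent.Lib.FrobeniusExists.exists_valuationSubring_isFrobeniusAt l hl
    obtain ⟨τ, m, j, h1, -⟩ := (h P hP).2 φ hφ
    exact pow_dvd_sub_one p hl hlp n L hLμ hσμ hP hφ h1
  · obtain ⟨τ, m, j, h1, h2⟩ := (h P hP).2 φ hφ
    exact ⟨exists_charpoly_frobenius ρbar L hLρ h1 h2 hαβ hσρ, τ, m, j, h1, h2⟩

end Galois

end Fermat.Agent.S56.Cheb.TW
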